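/-
GATE-Z (S15) / (F), node GZ-ARITH-MU, part 1 (helper94): **a rational number all of whose `ℓ`-adic
valuations are divisible by `r` is `±` an `r`-th power** (Mathlib only).
-/
import Mathlib

set_option autoImplicit false

namespace Fermat.Agent.GZ.Arith

/-- a natural number all of whose prime exponents are divisible by `r` is an `r`-th power. -/
theorem nat_eq_pow_of_forall_dvd {n r : ℕ} (hn : n ≠ 0)
    (h : ∀ l : ℕ, l.Prime → r ∣ n.factorization l) : ∃ u : ℕ, u ≠ 0 ∧ n = u ^ r := by
  refine ⟨n.factorization.prod fun l e => l ^ (e / r), ?_, ?_⟩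
  · rw [Finsupp.prod]
    refine Finset.prod_ne_zero_iff.mpr fun l hl => ?_
    have hl' : l.Prime := Nat.prime_of_mem_primeFactors (by simpa using hl)
    exact pow_ne_zero _ hl'.ne_zero
  · conv_lhs => rw [← Nat.prod_factorization_pow_eq_self hn]
    rw [Finsupp.prod, Finsupp.prod, ← Finset.prod_pow]
    refine Finset.prod_congr rfl fun l hl => ?_
    have hl' : l.Prime := Nat.prime_of_mem_primeFactors (by simpa using hl)
    rw [← pow_mul, Nat.div_mul_cancel (h l hl')]

/-- **`q ∈ ℚ^×` with `r ∣ v_ℓ(q)` for all primes `ℓ` is `± b ^ r`.** -/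
theorem rat_eq_pow_or_neg_pow {q : ℚ} (hq : q ≠ 0) {r : ℕ}
    (h : ∀ l : ℕ, l.Prime → (r : ℤ) ∣ padicValRat l q) :
    ∃ b : ℚ, b ≠ 0 ∧ (q = b ^ r ∨ q = -b ^ r) := by
  have hnum : q.num ≠ 0 := Rat.num_ne_zero.mpr hq
  have hnabs : q.num.natAbs ≠ 0 := Int.natAbs_ne_zero.mpr hnum
  have hcop : Nat.Coprime q.num.natAbs q.den := q.reduced
  -- the exponents of numerator and denominator are divisible by `r`
  have key : ∀ l : ℕ, l.Prime →
      r ∣ q.num.natAbs.factorization l ∧ r ∣ q.den.factorization l := by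
    intro l hl
    have : Fact l.Prime := ⟨hl⟩
    have h1 := h l hl
    rw [padicValRat_def] at h1
    have hv1 : padicValInt l q.num = q.num.natAbs.factorization l := by
      rw [padicValInt, Nat.factorization_def _ hl]
    have hv2 : padicValNat l q.den = q.den.factorization l := by
      rw [Nat.factorization_def _ hl]
    rw [hv1, hv2] at h1
    -- one of the two exponents vanishes
    by_cases hd : l ∣ q.den
    · have hn0 : q.num.natAbs.factorization l = 0 := by
        apply Nat.factorization_eq_zero_of_not_dvd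
        intro hdn
        exact hl.one_lt.ne' (Nat.eq_one_of_dvd_coprimes hcop hdn hd)
      rw [hn0] at h1
      refine ⟨by rw [hn0]; exact dvd_zero _, ?_⟩
      have h2 : (r : ℤ) ∣ ((q.den.factorization l : ℕ) : ℤ) := by
        have := (dvd_neg (α := ℤ)).mpr h1
        simpa using this
      exact Int.natCast_dvd_natCast.mp h2
    · have hd0 : q.den.factorization l = 0 := Nat.factorization_eq_zero_of_not_dvd hd
      rw [hd0] at h1
      refine ⟨?_, by rw [hd0]; exact dvd_zero _⟩
      have h2 : (r : ℤ) ∣ ((q.num.natAbs.factorization l : ℕ) : ℤ) := by simpa using h1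
      exact Int.natCast_dvd_natCast.mp h2
  obtain ⟨u, hu0, hu⟩ := nat_eq_pow_of_forall_dvd hnabs fun l hl => (key l hl).1
  obtain ⟨v, hv0, hv⟩ := nat_eq_pow_of_forall_dvd q.den_nz fun l hl => (key l hl).2
  have hu0' : (u : ℚ) ≠ 0 := Nat.cast_ne_zero.mpr hu0
  have hv0' : (v : ℚ) ≠ 0 := Nat.cast_ne_zero.mpr hv0
  refine ⟨(u : ℚ) / v, div_ne_zero hu0' hv0', ?_⟩
  have hq' : q = (q.num : ℚ) / (q.den : ℚ) := (Rat.num_div_den q).symm
  have hden : (q.den : ℚ) = (v : ℚ) ^ r := by rw [hv]; push_cast; ring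
  rcases Int.natAbs_eq q.num with hs | hs
  · left
    have hnumq : (q.num : ℚ) = (u : ℚ) ^ r := by
      rw [hs, hu]; push_cast; ring
    rw [div_pow, ← hnumq, ← hden, ← hq']
  · right
    have hnumq : (q.num : ℚ) = -(u : ℚ) ^ r := by
      rw [hs, hu]; push_cast; ring
    rw [div_pow, ← hden, ← neg_div, ← hnumq, ← hq']

end Fermat.Agent.GZ.Arith
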