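/-
GATE-Z (S15) / (F), node GZ-ARITH-MU, part 2 (helper94): **Hilbert 90 for level-constant cocycles of
`G_ℚ` with values in `ℚ̄ˣ`.**

* `exists_finite_stable_fixer_le` : an open subgroup `U ≤ G_ℚ` contains the pointwise stabiliser of
  a finite `G_ℚ`-stable set `X ⊆ ℚ̄` (Krull topology + a basis of a finite extension);
* `exists_h90` : a nowhere vanishing cocycle `c : G_ℚ → ℚ̄`, `c (σ τ) = c σ * σ (c τ)`, which is
  trivial on an open subgroup, is a coboundary: `∃ β ≠ 0, ∀ σ, c σ * β = σ β`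
  (helper1's `GL/Coh/SmoothH90.exists_smul_eq`).
-/
import Mathlib
import Fermat.Agent.GL.Coh.SmoothH90
import Fermat.Agent.Common_helper32.FrobeniusExists

set_option autoImplicit false
set_option linter.unusedSectionVars false

namespace Fermat.Agent.GZ.Arith

open Fermat.Agent.Common_helper32

/-- an open subgroup of `G_ℚ` contains the pointwise stabiliser of a finite stable set. -/
theorem exists_finite_stable_fixer_le (U : Subgroup GQ) (hU : IsOpen (U : Set GQ)) :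
    ∃ X : Set Qb, X.Finite ∧ (∀ (σ : GQ), ∀ x ∈ X, σ x ∈ X) ∧
      ∀ σ : GQ, (∀ x ∈ X, σ x = x) → σ ∈ U := by
  have hnhds : (U : Set GQ) ∈ nhds (1 : GQ) := hU.mem_nhds U.one_mem
  rw [krullTopology_mem_nhds_one_iff] at hnhds
  obtain ⟨E, hEfd, hEU⟩ := hnhds
  let b := Module.finBasis ℚ E
  let X : Set Qb := ⋃ i, (minpoly ℚ ((b i : E) : Qb)).rootSet Qb
  refine ⟨X, ?_, ?_, ?_⟩
  · exact Set.finite_iUnion fun i => Polynomial.rootSet_finite _ _
  · intro σ x hx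
    rw [Set.mem_iUnion] at hx ⊢
    obtain ⟨i, hi⟩ := hx
    exact ⟨i, Polynomial.rootSet_mapsTo (σ : Qb →ₐ[ℚ] Qb) hi⟩
  · intro σ hσ
    apply hEU
    rw [SetLike.mem_coe, IntermediateField.mem_fixingSubgroup_iff]
    intro e he
    have hbi : ∀ i, σ ((b i : E) : Qb) = ((b i : E) : Qb) := by
      intro i
      apply hσ
      rw [Set.mem_iUnion]
      refine ⟨i, ?_⟩
      rw [Polynomial.mem_rootSet]
      have hint : IsIntegral ℚ ((b i : E) : Qb) :=
        (Algebra.IsAlgebraic.isAlgebraic (R := ℚ) ((b i : E) : Qb)).isIntegral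
      exact ⟨minpoly.ne_zero hint, minpoly.aeval ℚ _⟩
    -- two `ℚ`-linear maps `E → ℚ̄` agreeing on a basis
    have hlin : (σ.toLinearMap ∘ₗ E.val.toLinearMap : E →ₗ[ℚ] Qb) = E.val.toLinearMap := by
      apply b.ext
      intro i
      exact hbi i
    have := LinearMap.congr_fun hlin ⟨e, he⟩
    exact this

/-- **Hilbert 90 for level-constant cocycles of `G_ℚ`.** -/
theorem exists_h90 (c : GQ → Qb) (hc0 : ∀ σ, c σ ≠ 0)
    (hc : ∀ σ τ : GQ, c (σ * τ) = c σ * σ (c τ))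
    (U : Subgroup GQ) (hU : IsOpen (U : Set GQ)) (hcU : ∀ σ ∈ U, c σ = 1) :
    ∃ β : Qb, β ≠ 0 ∧ ∀ σ : GQ, c σ * β = σ β := by
  obtain ⟨X, hXfin, hXstab, hXU⟩ := exists_finite_stable_fixer_le U hU
  obtain ⟨b, hb0, hb⟩ := Fermat.Agent.GL.Coh.SmoothH90.exists_smul_eq (H := GQ) (F := Qb) c hc0
    (fun σ τ => hc σ τ) X hXfin (fun σ x hx => hXstab σ x hx)
    (fun σ hσ => hcU σ (hXU σ fun x hx => hσ x hx))
  refine ⟨b⁻¹, inv_ne_zero hb0, fun σ => ?_⟩
  have h1 : c σ * σ b = b := hb σ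
  have hσb : σ b ≠ 0 := by
    intro h0
    rw [h0, mul_zero] at h1
    exact hb0 h1.symm
  rw [map_inv₀]
  apply eq_inv_of_mul_eq_one_left
  calc c σ * b⁻¹ * σ b = (c σ * σ b) * b⁻¹ := by ring
    _ = b * b⁻¹ := by rw [h1]
    _ = 1 := mul_inv_cancel₀ hb0

end Fermat.Agent.GZ.Arith
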