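/-
GATE-Z (S15) / (F), node GZ-ARITH-MU, part 3 (helper94): **Kummer evaluation over `ℚ` for the
multiplicative pieces** — the arithmetic behind the table entry `#Sel(piece) ≤ #P^G` (helper90
`GZ/Dev/Table`) for a piece `P ≅ μ_r`.

`P` a `G_ℚ`-module with an injective equivariant character `χ : P → ℚ̄ˣ` of exact order `r` (prime),
`x : G_ℚ → P` a cocycle which is
* level-constant (`x (g s) = x g` for `s` in an open subgroup),
* unramified at every prime `ℓ ≠ r` (`x σ = 0` on the inertia groups),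
* a UNIT class at `r` (the conclusion of `GZ/LocR/FlatSub/Eval.IsFlat.exists_unit_class` for
  `G = G_ℚ`: for every Hilbert-90 datum `β` some rational multiple `c β` has `(c β)^r ∈ A^×`).
Then `x` is a coboundary, except for `r = 2` where `x` may also be the class of `-1`:
`χ (x σ) * i = σ i` with `i ^ 2 = -1` (`kummer_arith`); two cocycles of the exceptional kind are
equal (`eq_of_exceptional`).

Proof: Hilbert 90 (`Arith/Smooth.exists_h90`) gives `β`; `a := β ^ r ∈ ℚˣ`; unramified at `ℓ` ⟹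
`β ∈ ℚ̄^{I_ℓ}` ⟹ `r ∣ v_ℓ(a)` (`GL/Local/InertiaField.exists_zpow_unit_of_fixed`); unit at `r` ⟹
`r ∣ v_r(a)`; so `a = ± b ^ r` (`Arith/RatPow`), and `β / b` is a root of unity (or `i`).
-/
import Mathlib
import Fermat.Agent.GL.Local.InertiaField
import Fermat.Agent.GZ.Mod.ValBridge
import Fermat.Agent.GZ.Dev.Marked
import Fermat.Agent.GZ.Arith.RatPow
import Fermat.Agent.GZ.Arith.Smooth

set_option autoImplicit false
set_option linter.unusedSectionVars false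
set_option linter.unusedVariables false

namespace Fermat.Agent.GZ.Arith

open Fermat.Agent.Common_helper32 Fermat.Agent.GZ.Dev Multiplicative
open Fermat.Agent.GZ.Mod.ValBridge

section Val

variable (A : ValuationSubring Qb)

/-- an element of `A` whose inverse is in `A` has valuation one. -/
theorem valuation_eq_one_of_mem_of_inv_mem {u : Qb} (hu : u ∈ A) (hu' : u⁻¹ ∈ A) (h0 : u ≠ 0) :
    A.valuation u = 1 := by
  have h1 : A.valuation u ≤ 1 := (A.valuation_le_one_iff u).mpr hu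
  have h2 : A.valuation u⁻¹ ≤ 1 := (A.valuation_le_one_iff _).mpr hu'
  rw [map_inv₀] at h2
  have h3 : A.valuation u ≠ 0 := (Valuation.ne_zero_iff _).mpr h0
  have h4 : 1 ≤ A.valuation u := (inv_le_one₀ (zero_lt_iff.mpr h3)).mp h2
  exact le_antisymm h1 h4

variable {A} {l : ℕ}

/-- a nonzero rational number which is a unit of `A ∣ ℓ` has `ℓ`-adic valuation zero. -/
theorem padicValRat_eq_zero_of_unit (hl : l.Prime) (hA : A.LiesOverPrime l) {q : ℚ} (hq : q ≠ 0)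
    (h1 : ((q : ℚ) : Qb) ∈ A) (h2 : ((q : ℚ) : Qb)⁻¹ ∈ A) : padicValRat l q = 0 := by
  have hq' : ((q : ℚ) : Qb) ≠ 0 := Rat.cast_ne_zero.mpr hq
  have hv := valuation_eq_one_of_mem_of_inv_mem A h1 h2 hq'
  rw [valuation_ratCast hl hA hq] at hv
  have h0 : A.valuation (l : Qb) ^ (0 : ℤ) = 1 := zpow_zero _
  rw [← h0] at hv
  exact zpow_right_injective₀ (valuation_prime_pos hl) (valuation_prime_lt_one hA).ne hv

/-- if `β ^ r = q ∈ ℚˣ` and `β = ℓ ^ n · unit` then `v_ℓ(q) = r n`. -/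
theorem padicValRat_of_pow_eq (hl : l.Prime) (hA : A.LiesOverPrime l) {q : ℚ} (hq : q ≠ 0)
    {β : Qb} (hβ0 : β ≠ 0) {r : ℕ} (hβ : β ^ r = ((q : ℚ) : Qb)) (n : ℤ)
    (h1 : β / (l : Qb) ^ n ∈ A) (h2 : (β / (l : Qb) ^ n)⁻¹ ∈ A) :
    padicValRat l q = (r : ℤ) * n := by
  have hl0 : ((l : ℕ) : Qb) ^ n ≠ 0 := zpow_ne_zero _ (Nat.cast_ne_zero.mpr hl.ne_zero)
  have hu := valuation_eq_one_of_mem_of_inv_mem A h1 h2 (div_ne_zero hβ0 hl0)
  rw [map_div₀, div_eq_one_iff_eq ((Valuation.ne_zero_iff _).mpr hl0), map_zpow₀] at hu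
  have hv : A.valuation ((q : ℚ) : Qb) = A.valuation (l : Qb) ^ ((r : ℤ) * n) := by
    rw [← hβ, map_pow, hu, ← zpow_natCast, ← zpow_mul, mul_comm]
  rw [valuation_ratCast hl hA hq] at hv
  exact zpow_right_injective₀ (valuation_prime_pos hl) (valuation_prime_lt_one hA).ne hv

end Val

section Main

variable {P : Type*} [AddCommGroup P] [DistribMulAction GQ P]
variable (χ : Multiplicative P →* Qb)

/-- a cocycle vanishes at `1`. -/
theorem isCocycle_one {x : GQ → P} (hcoc : IsCocycle x) : x 1 = 0 := by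
  have h := hcoc 1 1
  rw [mul_one, one_smul] at h
  exact left_eq_add.mp h

/-- the values of a character of a group killed by `r` are `r`-th roots of unity. -/
theorem chi_pow_eq_one {r : ℕ} (hP : ∀ m : P, r • m = 0) (m : P) : χ (ofAdd m) ^ r = 1 := by
  rw [← map_pow, ← ofAdd_nsmul, hP, ofAdd_zero, map_one]

theorem chi_ne_zero {r : ℕ} (hr : r ≠ 0) (hP : ∀ m : P, r • m = 0) (m : P) :
    χ (ofAdd m) ≠ 0 := by
  intro h0
  have := chi_pow_eq_one χ hP m
  rw [h0, zero_pow hr] at this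
  exact zero_ne_one this

variable {χ}

/-- **a root of unity as Hilbert-90 datum ⟹ coboundary.** -/
theorem exists_dCob_of_root (hχinj : ∀ m : P, χ (ofAdd m) = 1 → m = 0)
    (hχeq : ∀ (σ : GQ) (m : P), χ (ofAdd (σ • m)) = σ (χ (ofAdd m)))
    {r : ℕ} (hr : r ≠ 0) (hP : ∀ m : P, r • m = 0)
    (m₀ : P) (hζ : IsPrimitiveRoot (χ (ofAdd m₀)) r) (x : GQ → P)
    {ε : Qb} (hε : ε ^ r = 1) (hεx : ∀ σ : GQ, χ (ofAdd (x σ)) * ε = σ ε) :
    ∃ w : P, x = dCob GQ w := by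
  have : NeZero r := ⟨hr⟩
  obtain ⟨k, -, hk⟩ := hζ.eq_pow_of_pow_eq_one hε
  refine ⟨k • m₀, funext fun σ => ?_⟩
  set w : P := k • m₀ with hw
  have hχw : χ (ofAdd w) = ε := by rw [hw, ofAdd_nsmul, map_pow, hk]
  have h1 : χ (ofAdd (x σ + w)) = χ (ofAdd (σ • w)) := by
    rw [ofAdd_add, map_mul, hχw, hεx σ, hχeq, hχw]
  have h2 : χ (ofAdd (x σ + w - σ • w)) = 1 := by
    have h3 : x σ + w = (x σ + w - σ • w) + σ • w := by abel
    rw [h3, ofAdd_add, map_mul] at h1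
    exact mul_right_cancel₀ (chi_ne_zero χ hr hP _) (h1.trans (one_mul _).symm)
  have h4 := hχinj _ h2
  rw [dCob_apply]
  have h5 : x σ = (x σ + w - σ • w) + (σ • w - w) := by abel
  rw [h5, h4, zero_add]

/-- **Kummer evaluation over `ℚ` for a multiplicative piece.** -/
theorem kummer_arith (hχinj : ∀ m : P, χ (ofAdd m) = 1 → m = 0)
    (hχeq : ∀ (σ : GQ) (m : P), χ (ofAdd (σ • m)) = σ (χ (ofAdd m)))
    {r : ℕ} (hr : r.Prime) (hP : ∀ m : P, r • m = 0)
    (m₀ : P) (hζ : IsPrimitiveRoot (χ (ofAdd m₀)) r)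
    (x : GQ → P) (hcoc : IsCocycle x)
    (hsm : ∃ U : Subgroup GQ, IsOpen (U : Set GQ) ∧ ∀ g : GQ, ∀ s ∈ U, x (g * s) = x g)
    (hur : ∀ l : ℕ, l.Prime → l ≠ r → ∀ A : ValuationSubring Qb, A.LiesOverPrime l →
      ∀ σ ∈ A.inertiaSubgroupIn ℚ, x σ = 0)
    (hunit : ∃ A : ValuationSubring Qb, A.LiesOverPrime r ∧ ∀ β : Qb, β ≠ 0 →
      (∀ σ : GQ, χ (ofAdd (x σ)) * β = σ β) →
        ∃ c : Qb, c ≠ 0 ∧ (∀ σ : GQ, σ c = c) ∧ (c * β) ^ r ∈ A ∧ ((c * β) ^ r)⁻¹ ∈ A) :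
    (∃ w : P, x = dCob GQ w) ∨
      (r = 2 ∧ ∃ i : Qb, i ^ 2 = -1 ∧ ∀ σ : GQ, χ (ofAdd (x σ)) * i = σ i) := by
  have : Fact r.Prime := ⟨hr⟩
  have hr0 : r ≠ 0 := hr.ne_zero
  -- Step 1: Hilbert 90
  obtain ⟨U, hU, hxU⟩ := hsm
  obtain ⟨β, hβ0, hβ⟩ := exists_h90 (fun σ => χ (ofAdd (x σ)))
    (fun σ => chi_ne_zero χ hr0 hP _)
    (by
      intro σ τ
      show χ (ofAdd (x (σ * τ))) = χ (ofAdd (x σ)) * σ (χ (ofAdd (x τ)))
      rw [hcoc σ τ, ofAdd_add, map_mul, hχeq])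
    U hU
    (by
      intro s hs
      show χ (ofAdd (x s)) = 1
      have h1 := hxU 1 s hs
      rw [one_mul, isCocycle_one hcoc] at h1
      rw [h1, ofAdd_zero, map_one])
  -- Step 2: `a := β ^ r` is rational
  have hfix : ∀ σ : GQ, σ (β ^ r) = β ^ r := by
    intro σ
    rw [map_pow, ← hβ σ, mul_pow, chi_pow_eq_one χ hP, one_mul]
  obtain ⟨q, hq⟩ := (InfiniteGalois.mem_range_algebraMap_iff_fixed (β ^ r)).mpr hfix
  rw [eq_ratCast] at hq
  have hq0 : q ≠ 0 := by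
    rintro rfl
    rw [Rat.cast_zero] at hq
    exact pow_ne_zero r hβ0 hq.symm
  -- a rational number fixed by `G_ℚ`
  have hrat : ∀ c : Qb, (∀ σ : GQ, σ c = c) → ∃ q' : ℚ, ((q' : ℚ) : Qb) = c := by
    intro c hc
    obtain ⟨q', hq'⟩ := (InfiniteGalois.mem_range_algebraMap_iff_fixed c).mpr hc
    exact ⟨q', by rw [← hq', eq_ratCast]⟩
  -- Step 3: all valuations of `q` are divisible by `r`
  have hval : ∀ l : ℕ, l.Prime → (r : ℤ) ∣ padicValRat l q := by
    intro l hl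
    by_cases hlr : l = r
    · subst hlr
      obtain ⟨A, hA, hAβ⟩ := hunit
      obtain ⟨c, hc0, hcfix, hc1, hc2⟩ := hAβ β hβ0 hβ
      obtain ⟨q', rfl⟩ := hrat c hcfix
      have hq'0 : q' ≠ 0 := by
        rintro rfl
        exact hc0 Rat.cast_zero
      have hprod : (((q' : ℚ) : Qb) * β) ^ l = (((q' ^ l * q : ℚ)) : Qb) := by
        rw [mul_pow, ← hq]
        push_cast
        ring
      rw [hprod] at hc1 hc2
      have h0 := padicValRat_eq_zero_of_unit hl hA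
        (mul_ne_zero (pow_ne_zero _ hq'0) hq0) hc1 hc2
      rw [padicValRat.mul (pow_ne_zero _ hq'0) hq0, padicValRat.pow] at h0
      exact ⟨-padicValRat l q', by linarith⟩
    · obtain ⟨A, hA⟩ := exists_liesOverPrime l hl
      have hβI : ∀ σ ∈ A.inertiaSubgroupIn ℚ, σ β = β := by
        intro σ hσ
        rw [← hβ σ, hur l hl hlr A hA σ hσ, ofAdd_zero, map_one, one_mul]
      obtain ⟨n, hn1, hn2⟩ :=
        Fermat.Agent.GL.Local.InertiaField.exists_zpow_unit_of_fixed A hl hA β hβ0 hβI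
      exact ⟨n, padicValRat_of_pow_eq hl hA hq0 hβ0 hq.symm n hn1 hn2⟩
  -- Step 4: `q = ± b ^ r`
  obtain ⟨b, hb0, hb⟩ := rat_eq_pow_or_neg_pow hq0 hval
  have hb0' : ((b : ℚ) : Qb) ≠ 0 := Rat.cast_ne_zero.mpr hb0
  set ε : Qb := β / ((b : ℚ) : Qb) with hεdef
  have hεx : ∀ σ : GQ, χ (ofAdd (x σ)) * ε = σ ε := by
    intro σ
    rw [hεdef, map_div₀, map_ratCast, ← hβ σ, mul_div_assoc]
  have hεpow : ε ^ r = ((q : ℚ) : Qb) / (((b : ℚ) : Qb) ^ r) := by
    rw [hεdef, div_pow, hq]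
  rcases hb with hb | hb
  · -- `ε ^ r = 1`
    left
    have hε1 : ε ^ r = 1 := by
      rw [hεpow, hb]
      push_cast
      exact div_self (pow_ne_zero _ hb0')
    exact exists_dCob_of_root hχinj hχeq hr0 hP m₀ hζ x hε1 hεx
  · -- `ε ^ r = -1`
    have hεm1 : ε ^ r = -1 := by
      rw [hεpow, hb]
      push_cast
      rw [neg_div, div_self (pow_ne_zero _ hb0')]
    rcases hr.eq_two_or_odd' with h2 | hodd
    · right
      subst h2
      exact ⟨rfl, ε, hεm1, hεx⟩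
    · left
      have hε1 : (-ε) ^ r = 1 := by rw [hodd.neg_pow, hεm1, neg_neg]
      refine exists_dCob_of_root hχinj hχeq hr0 hP m₀ hζ x hε1 fun σ => ?_
      rw [mul_neg, hεx σ, map_neg]

/-- two cocycles of the exceptional kind (`r = 2`, class of `-1`) are equal. -/
theorem eq_of_exceptional (hχinj : ∀ m : P, χ (ofAdd m) = 1 → m = 0)
    (hP : ∀ m : P, 2 • m = 0) {x y : GQ → P} {i j : Qb} (hi : i ^ 2 = -1) (hj : j ^ 2 = -1)
    (hx : ∀ σ : GQ, χ (ofAdd (x σ)) * i = σ i) (hy : ∀ σ : GQ, χ (ofAdd (y σ)) * j = σ j) :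
    x = y := by
  have hi0 : i ≠ 0 := by
    rintro rfl
    norm_num at hi
  have hij : j = i ∨ j = -i := by
    have h : (j - i) * (j + i) = 0 := by ring_nf; rw [hi, hj]; ring
    rcases mul_eq_zero.mp h with h | h
    · left; exact sub_eq_zero.mp h
    · right; exact eq_neg_of_add_eq_zero_left h
  funext σ
  have hχ : χ (ofAdd (x σ)) = χ (ofAdd (y σ)) := by
    have h1 := hx σ
    have h2 := hy σ
    rcases hij with rfl | rfl
    · exact mul_right_cancel₀ hi0 (h1.trans h2.symm)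
    · rw [mul_neg, map_neg, neg_inj] at h2
      exact mul_right_cancel₀ hi0 (h1.trans h2.symm)
  have h3 : χ (ofAdd (x σ - y σ)) = 1 := by
    have h4 : x σ = (x σ - y σ) + y σ := by abel
    rw [h4, ofAdd_add, map_mul] at hχ
    exact mul_right_cancel₀ (chi_ne_zero χ two_ne_zero hP _) (hχ.trans (one_mul _).symm)
  exact sub_eq_zero.mp (hχinj _ h3)

end Main

end Fermat.Agent.GZ.Arith
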