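/-
GATE-Z (S15) / (F), node GZ-ARITH-MU, part 4 (helper94): **the arithmetic binders `CobHyp` /
`RealHyp` of helper90's `GZ/Dev/Arith/Hyp` for a multiplicative piece over `G_ℚ`.**

* `kummer_arith_ex` : `MuKummer.kummer_arith` with the unramifiedness hypothesis in `∃`-form (one
  valuation subring per prime `ℓ ≠ r` suffices);
* `inertia_smul_eq` : the inertia at `p ≠ r` acts trivially on a piece `P ↪ μ_r`;
* `cobHyp_of_mu`    : `r` odd — every plain Selmer cocycle of the piece is a coboundary;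
* `realHyp_of_two`  : `r = 2` — a plain Selmer cocycle vanishing at a `c₀` with `c₀ i = -i` is `0`.

The hypotheses on the admissible cochains `𝒲.X` of the piece: level-constant (`hXsm`), unramified
outside `{r, p}` (`hXur`), unit class at `r` (`hXunit`, = the conclusion of
`GZ/LocR/PieceType.flat_exists_unit_class_of_local(_two)` / `GZ/LocR/FlatSub/Eval`); at `p` the
Selmer condition is used (`I ⊇ I_A`, `A ∣ p`).
-/
import Mathlib
import Fermat.Agent.GZ.Dev.Arith.Hyp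
import Fermat.Agent.GZ.Arith.MuKummer

set_option autoImplicit false
set_option linter.unusedSectionVars false
set_option linter.unusedVariables false

namespace Fermat.Agent.GZ.Arith

open Fermat.Agent.Common_helper32 Fermat.Agent.GZ.Dev Fermat.Agent.GZ.Dev.Arith Multiplicative
open Fermat.Agent.GZ.Mod.ValBridge

section Main

variable {P : Type*} [AddCommGroup P] [DistribMulAction GQ P]
variable {χ : Multiplicative P →* Qb}

/-- `χ` is injective. -/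
theorem chi_eq_imp_eq (hχinj : ∀ m : P, χ (ofAdd m) = 1 → m = 0) {r : ℕ} (hr : r ≠ 0)
    (hP : ∀ m : P, r • m = 0) {a b : P} (h : χ (ofAdd a) = χ (ofAdd b)) : a = b := by
  have h3 : χ (ofAdd (a - b)) = 1 := by
    have h4 : a = (a - b) + b := by abel
    rw [h4, ofAdd_add, map_mul] at h
    exact mul_right_cancel₀ (chi_ne_zero χ hr hP _) (h.trans (one_mul _).symm)
  exact sub_eq_zero.mp (hχinj _ h3)

/-- **Kummer evaluation over `ℚ`, `∃`-form of the unramifiedness hypothesis.** -/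
theorem kummer_arith_ex (hχinj : ∀ m : P, χ (ofAdd m) = 1 → m = 0)
    (hχeq : ∀ (σ : GQ) (m : P), χ (ofAdd (σ • m)) = σ (χ (ofAdd m)))
    {r : ℕ} (hr : r.Prime) (hP : ∀ m : P, r • m = 0)
    (m₀ : P) (hζ : IsPrimitiveRoot (χ (ofAdd m₀)) r)
    (x : GQ → P) (hcoc : IsCocycle x)
    (hsm : ∃ U : Subgroup GQ, IsOpen (U : Set GQ) ∧ ∀ g : GQ, ∀ s ∈ U, x (g * s) = x g)
    (hur : ∀ l : ℕ, l.Prime → l ≠ r → ∃ A : ValuationSubring Qb, A.LiesOverPrime l ∧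
      ∀ σ ∈ A.inertiaSubgroupIn ℚ, x σ = 0)
    (hunit : ∃ A : ValuationSubring Qb, A.LiesOverPrime r ∧ ∀ β : Qb, β ≠ 0 →
      (∀ σ : GQ, χ (ofAdd (x σ)) * β = σ β) →
        ∃ c : Qb, c ≠ 0 ∧ (∀ σ : GQ, σ c = c) ∧ (c * β) ^ r ∈ A ∧ ((c * β) ^ r)⁻¹ ∈ A) :
    (∃ w : P, x = dCob GQ w) ∨
      (r = 2 ∧ ∃ i : Qb, i ^ 2 = -1 ∧ ∀ σ : GQ, χ (ofAdd (x σ)) * i = σ i) := by
  have : Fact r.Prime := ⟨hr⟩
  have hr0 : r ≠ 0 := hr.ne_zero
  -- Step 1: Hilbert 90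
  obtain ⟨U, hU, hxU⟩ := hsm
  obtain ⟨β, hβ0, hβ⟩ := exists_h90 (fun σ => χ (ofAdd (x σ)))
    (fun σ => chi_ne_zero χ hr0 hP _)
    (by
      intro σ τ
      show χ (ofAdd (x (σ * τ))) = χ (ofAdd (x σ)) * σ (χ (ofAdd (x τ)))
      rw [hcoc σ τ, ofAdd_add, map_mul, hχeq])
    U hU
    (by
      intro s hs
      show χ (ofAdd (x s)) = 1
      have h1 := hxU 1 s hs
      rw [one_mul, isCocycle_one hcoc] at h1
      rw [h1, ofAdd_zero, map_one])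
  -- Step 2: `a := β ^ r` is rational
  have hfix : ∀ σ : GQ, σ (β ^ r) = β ^ r := by
    intro σ
    rw [map_pow, ← hβ σ, mul_pow, chi_pow_eq_one χ hP, one_mul]
  obtain ⟨q, hq⟩ := (InfiniteGalois.mem_range_algebraMap_iff_fixed (β ^ r)).mpr hfix
  rw [eq_ratCast] at hq
  have hq0 : q ≠ 0 := by
    rintro rfl
    rw [Rat.cast_zero] at hq
    exact pow_ne_zero r hβ0 hq.symm
  have hrat : ∀ c : Qb, (∀ σ : GQ, σ c = c) → ∃ q' : ℚ, ((q' : ℚ) : Qb) = c := by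
    intro c hc
    obtain ⟨q', hq'⟩ := (InfiniteGalois.mem_range_algebraMap_iff_fixed c).mpr hc
    exact ⟨q', by rw [← hq', eq_ratCast]⟩
  -- Step 3: all valuations of `q` are divisible by `r`
  have hval : ∀ l : ℕ, l.Prime → (r : ℤ) ∣ padicValRat l q := by
    intro l hl
    by_cases hlr : l = r
    · subst hlr
      obtain ⟨A, hA, hAβ⟩ := hunit
      obtain ⟨c, hc0, hcfix, hc1, hc2⟩ := hAβ β hβ0 hβ
      obtain ⟨q', rfl⟩ := hrat c hcfix
      have hq'0 : q' ≠ 0 := by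
        rintro rfl
        exact hc0 Rat.cast_zero
      have hprod : (((q' : ℚ) : Qb) * β) ^ l = (((q' ^ l * q : ℚ)) : Qb) := by
        rw [mul_pow, ← hq]
        push_cast
        ring
      rw [hprod] at hc1 hc2
      have h0 := padicValRat_eq_zero_of_unit hl hA
        (mul_ne_zero (pow_ne_zero _ hq'0) hq0) hc1 hc2
      rw [padicValRat.mul (pow_ne_zero _ hq'0) hq0, padicValRat.pow] at h0
      exact ⟨-padicValRat l q', by linarith⟩
    · obtain ⟨A, hA, hxA⟩ := hur l hl hlr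
      have hβI : ∀ σ ∈ A.inertiaSubgroupIn ℚ, σ β = β := by
        intro σ hσ
        rw [← hβ σ, hxA σ hσ, ofAdd_zero, map_one, one_mul]
      obtain ⟨n, hn1, hn2⟩ :=
        Fermat.Agent.GL.Local.InertiaField.exists_zpow_unit_of_fixed A hl hA β hβ0 hβI
      exact ⟨n, padicValRat_of_pow_eq hl hA hq0 hβ0 hq.symm n hn1 hn2⟩
  -- Step 4: `q = ± b ^ r`
  obtain ⟨b, hb0, hb⟩ := rat_eq_pow_or_neg_pow hq0 hval
  have hb0' : ((b : ℚ) : Qb) ≠ 0 := Rat.cast_ne_zero.mpr hb0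
  set ε : Qb := β / ((b : ℚ) : Qb) with hεdef
  have hεx : ∀ σ : GQ, χ (ofAdd (x σ)) * ε = σ ε := by
    intro σ
    rw [hεdef, map_div₀, map_ratCast, ← hβ σ, mul_div_assoc]
  have hεpow : ε ^ r = ((q : ℚ) : Qb) / (((b : ℚ) : Qb) ^ r) := by
    rw [hεdef, div_pow, hq]
  rcases hb with hb | hb
  · left
    have hε1 : ε ^ r = 1 := by
      rw [hεpow, hb]
      push_cast
      exact div_self (pow_ne_zero _ hb0')
    exact exists_dCob_of_root hχinj hχeq hr0 hP m₀ hζ x hε1 hεx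
  · have hεm1 : ε ^ r = -1 := by
      rw [hεpow, hb]
      push_cast
      rw [neg_div, div_self (pow_ne_zero _ hb0')]
    rcases hr.eq_two_or_odd' with h2 | hodd
    · right
      subst h2
      exact ⟨rfl, ε, hεm1, hεx⟩
    · left
      have hε1 : (-ε) ^ r = 1 := by rw [hodd.neg_pow, hεm1, neg_neg]
      refine exists_dCob_of_root hχinj hχeq hr0 hP m₀ hζ x hε1 fun σ => ?_
      rw [mul_neg, hεx σ, map_neg]

/-- the inertia at `p ≠ r` acts trivially on a piece embedded in `μ_r`. -/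
theorem inertia_smul_eq (hχinj : ∀ m : P, χ (ofAdd m) = 1 → m = 0)
    (hχeq : ∀ (σ : GQ) (m : P), χ (ofAdd (σ • m)) = σ (χ (ofAdd m)))
    {r : ℕ} (hr : r.Prime) (hP : ∀ m : P, r • m = 0) {p : ℕ} (hp : p.Prime) (hpr : p ≠ r)
    (A : ValuationSubring Qb) (hA : A.LiesOverPrime p) {σ : GQ}
    (hσ : σ ∈ A.inertiaSubgroupIn ℚ) (m : P) : σ • m = m := by
  apply chi_eq_imp_eq hχinj hr.ne_zero hP
  rw [hχeq]
  have hndvd : ¬ p ∣ r := fun h => hpr ((Nat.prime_dvd_prime_iff_eq hp hr).mp h)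
  have hmem := Fermat.Agent.GL.Local.InertiaField.rootOfUnity_mem_inertiaField A hp hA hndvd
    (chi_pow_eq_one χ hP m)
  exact (Fermat.Agent.GL.Local.InertiaField.mem_inertiaField_iff A _).mp hmem σ hσ

variable {D I : Subgroup GQ}

/-- the unramifiedness hypothesis of `kummer_arith_ex` for a plain Selmer cocycle of a piece. -/
theorem exists_unramified_of_mem_SelZ (𝒲 : Marked D I P)
    (hχinj : ∀ m : P, χ (ofAdd m) = 1 → m = 0)
    (hχeq : ∀ (σ : GQ) (m : P), χ (ofAdd (σ • m)) = σ (χ (ofAdd m)))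
    {r : ℕ} (hr : r.Prime) (hP : ∀ m : P, r • m = 0) {p : ℕ} (hp : p.Prime) (hpr : p ≠ r)
    (hpI : ∃ A : ValuationSubring Qb, A.LiesOverPrime p ∧ A.inertiaSubgroupIn ℚ ≤ I)
    (hXur : ∀ x ∈ 𝒲.X, ∀ l : ℕ, l.Prime → l ≠ r → l ≠ p →
      ∃ A : ValuationSubring Qb, A.LiesOverPrime l ∧ ∀ σ ∈ A.inertiaSubgroupIn ℚ, x σ = 0)
    {x : GQ → P} (hx : x ∈ 𝒲.SelZ) :
    ∀ l : ℕ, l.Prime → l ≠ r → ∃ A : ValuationSubring Qb, A.LiesOverPrime l ∧
      ∀ σ ∈ A.inertiaSubgroupIn ℚ, x σ = 0 := by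
  obtain ⟨hxX, hcoc, l₀, hl₀⟩ := hx
  intro l hl hlr
  by_cases hlp : l = p
  · subst hlp
    obtain ⟨A, hA, hAI⟩ := hpI
    refine ⟨A, hA, fun σ hσ => ?_⟩
    rw [hl₀ σ (hAI hσ), inertia_smul_eq hχinj hχeq hr hP hl hlr A hA hσ, sub_self]
  · exact hXur x hxX l hl hlr hlp

/-- **`CobHyp` for a `μ_r`-piece, `r` odd.** -/
theorem cobHyp_of_mu (𝒲 : Marked D I P) (hχinj : ∀ m : P, χ (ofAdd m) = 1 → m = 0)
    (hχeq : ∀ (σ : GQ) (m : P), χ (ofAdd (σ • m)) = σ (χ (ofAdd m)))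
    {r : ℕ} (hr : r.Prime) (hodd : r ≠ 2) (hP : ∀ m : P, r • m = 0)
    (m₀ : P) (hζ : IsPrimitiveRoot (χ (ofAdd m₀)) r) {p : ℕ} (hp : p.Prime) (hpr : p ≠ r)
    (hpI : ∃ A : ValuationSubring Qb, A.LiesOverPrime p ∧ A.inertiaSubgroupIn ℚ ≤ I)
    (hXsm : ∀ x ∈ 𝒲.X, ∃ U : Subgroup GQ, IsOpen (U : Set GQ) ∧
      ∀ g : GQ, ∀ s ∈ U, x (g * s) = x g)
    (hXur : ∀ x ∈ 𝒲.X, ∀ l : ℕ, l.Prime → l ≠ r → l ≠ p →
      ∃ A : ValuationSubring Qb, A.LiesOverPrime l ∧ ∀ σ ∈ A.inertiaSubgroupIn ℚ, x σ = 0)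
    (hXunit : ∀ x ∈ 𝒲.X, IsCocycle x →
      ∃ A : ValuationSubring Qb, A.LiesOverPrime r ∧ ∀ β : Qb, β ≠ 0 →
        (∀ σ : GQ, χ (ofAdd (x σ)) * β = σ β) →
          ∃ c : Qb, c ≠ 0 ∧ (∀ σ : GQ, σ c = c) ∧ (c * β) ^ r ∈ A ∧ ((c * β) ^ r)⁻¹ ∈ A) :
    CobHyp 𝒲 := by
  intro x hx
  have hur := exists_unramified_of_mem_SelZ 𝒲 hχinj hχeq hr hP hp hpr hpI hXur hx
  obtain ⟨hxX, hcoc, -⟩ := hx
  rcases kummer_arith_ex hχinj hχeq hr hP m₀ hζ x hcoc (hXsm x hxX) hur (hXunit x hxX hcoc)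
    with h | ⟨h2, -⟩
  · exact h
  · exact absurd h2 hodd

/-- **`RealHyp` for a piece of order `2`.** -/
theorem realHyp_of_two (𝒲 : Marked D I P) (hχinj : ∀ m : P, χ (ofAdd m) = 1 → m = 0)
    (hχeq : ∀ (σ : GQ) (m : P), χ (ofAdd (σ • m)) = σ (χ (ofAdd m)))
    (hP : ∀ m : P, 2 • m = 0)
    (m₀ : P) (hζ : IsPrimitiveRoot (χ (ofAdd m₀)) 2) {p : ℕ} (hp : p.Prime) (hp2 : p ≠ 2)
    (hpI : ∃ A : ValuationSubring Qb, A.LiesOverPrime p ∧ A.inertiaSubgroupIn ℚ ≤ I)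
    (hXsm : ∀ x ∈ 𝒲.X, ∃ U : Subgroup GQ, IsOpen (U : Set GQ) ∧
      ∀ g : GQ, ∀ s ∈ U, x (g * s) = x g)
    (hXur : ∀ x ∈ 𝒲.X, ∀ l : ℕ, l.Prime → l ≠ 2 → l ≠ p →
      ∃ A : ValuationSubring Qb, A.LiesOverPrime l ∧ ∀ σ ∈ A.inertiaSubgroupIn ℚ, x σ = 0)
    (hXunit : ∀ x ∈ 𝒲.X, IsCocycle x →
      ∃ A : ValuationSubring Qb, A.LiesOverPrime 2 ∧ ∀ β : Qb, β ≠ 0 →
        (∀ σ : GQ, χ (ofAdd (x σ)) * β = σ β) →
          ∃ c : Qb, c ≠ 0 ∧ (∀ σ : GQ, σ c = c) ∧ (c * β) ^ 2 ∈ A ∧ ((c * β) ^ 2)⁻¹ ∈ A)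
    (c₀ : GQ) (i₀ : Qb) (hi : i₀ ^ 2 = -1) (hc : c₀ i₀ = -i₀) :
    RealHyp 𝒲 c₀ := by
  intro x hx hxc
  have hur := exists_unramified_of_mem_SelZ 𝒲 hχinj hχeq Nat.prime_two hP hp hp2 hpI hXur hx
  obtain ⟨hxX, hcoc, -⟩ := hx
  -- the action on a group embedded in `{±1}` is trivial
  have htriv : ∀ (σ : GQ) (m : P), σ • m = m := by
    intro σ m
    apply chi_eq_imp_eq hχinj two_ne_zero hP
    rw [hχeq]
    have hsq : χ (ofAdd m) ^ 2 = 1 := chi_pow_eq_one χ hP m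
    have hfac : (χ (ofAdd m) - 1) * (χ (ofAdd m) + 1) = 0 := by ring_nf; rw [hsq]; ring
    rcases mul_eq_zero.mp hfac with h | h
    · rw [sub_eq_zero.mp h, map_one]
    · rw [eq_neg_of_add_eq_zero_left h, map_neg, map_one]
  rcases kummer_arith_ex hχinj hχeq Nat.prime_two hP m₀ hζ x hcoc (hXsm x hxX) hur
    (hXunit x hxX hcoc) with ⟨w, hw⟩ | ⟨-, i, hi', hxi⟩
  · rw [hw]
    funext σ
    rw [dCob_apply, htriv, sub_self]
    rfl
  · exfalso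
    have h1 := hxi c₀
    rw [hxc, ofAdd_zero, map_one, one_mul] at h1
    -- `i = ± i₀`
    have hi0 : i ≠ 0 := by
      rintro rfl
      norm_num at hi'
    have hij : i = i₀ ∨ i = -i₀ := by
      have h : (i - i₀) * (i + i₀) = 0 := by ring_nf; rw [hi, hi']; ring
      rcases mul_eq_zero.mp h with h | h
      · left; exact sub_eq_zero.mp h
      · right; exact eq_neg_of_add_eq_zero_left h
    have h2 : c₀ i = -i := by
      rcases hij with rfl | rfl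
      · exact hc
      · rw [map_neg, hc]
    rw [h2] at h1
    have h3 : (2 : Qb) * i = 0 := by
      have : i + i = 0 := by nth_rewrite 1 [h1]; exact neg_add_cancel i
      rw [two_mul]; exact this
    rcases mul_eq_zero.mp h3 with h | h
    · exact two_ne_zero h
    · exact hi0 h

end Main

end Fermat.Agent.GZ.Arith
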